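import Mathlib

/-!
# DS / MODL: the local ring of a ring homomorphism to a field, inside `ℂ`

For a subring `R ⊆ ℂ` and a ring homomorphism `φ₀ : R →+* k` to a field, `locSubring R φ₀` is the
subring `{x | ∃ s t ∈ R, φ₀ s ≠ 0 ∧ s * x = t}` of `ℂ` (the localisation of `R` at `ker φ₀`), and
`locHom R φ₀ : locSubring R φ₀ →+* k` is the extension `t / s ↦ φ₀ t / φ₀ s` of `φ₀`.
-/

set_option autoImplicit false

namespace Fermat.Agent.DS.ModL

variable {S : Type*} [SetLike S ℂ] [SubringClass S ℂ] (R : S) {k : Type*} [Field k] (φ₀ : R →+* k)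

/-- The localisation of `R` at the kernel of `φ₀`, as a subring of `ℂ`. -/
def locSubring : Subring ℂ where
  carrier := {x | ∃ s t : R, φ₀ s ≠ 0 ∧ (s : ℂ) * x = t}
  mul_mem' := by
    rintro x y ⟨s, t, hs, hx⟩ ⟨s', t', hs', hy⟩
    refine ⟨s * s', t * t', ?_, ?_⟩
    · rw [map_mul]; exact mul_ne_zero hs hs'
    · push_cast
      rw [← hx, ← hy]; ring
  one_mem' := ⟨1, 1, by rw [map_one]; exact one_ne_zero, by simp⟩
  add_mem' := by
    rintro x y ⟨s, t, hs, hx⟩ ⟨s', t', hs', hy⟩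
    refine ⟨s * s', t * s' + t' * s, ?_, ?_⟩
    · rw [map_mul]; exact mul_ne_zero hs hs'
    · push_cast
      rw [← hx, ← hy]; ring
  zero_mem' := ⟨1, 0, by rw [map_one]; exact one_ne_zero, by simp⟩
  neg_mem' := by
    rintro x ⟨s, t, hs, hx⟩
    refine ⟨s, -t, hs, ?_⟩
    push_cast
    rw [← hx]; ring

variable {R φ₀}

theorem mem_locSubring {x : ℂ} :
    x ∈ locSubring R φ₀ ↔ ∃ s t : R, φ₀ s ≠ 0 ∧ (s : ℂ) * x = t := Iff.rfl

theorem coe_mem_locSubring (r : R) : (r : ℂ) ∈ locSubring R φ₀ :=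
  ⟨1, r, by rw [map_one]; exact one_ne_zero, by simp⟩

theorem mem_locSubring_of_mul {x : ℂ} (s : R) (hs : φ₀ s ≠ 0) (h : (s : ℂ) * x ∈ R) :
    x ∈ locSubring R φ₀ :=
  ⟨s, ⟨_, h⟩, hs, rfl⟩

theorem mem_locSubring_of_natCast_mul {x : ℂ} (D : ℕ) (hD : (D : k) ≠ 0)
    (h : (D : ℂ) * x ∈ R) : x ∈ locSubring R φ₀ := by
  refine mem_locSubring_of_mul (D : R) ?_ ?_
  · rw [map_natCast]; exact hD
  · push_cast; exact h

theorem ne_zero_of_map_ne_zero {s : R} (hs : φ₀ s ≠ 0) : (s : ℂ) ≠ 0 := by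
  intro h
  apply hs
  have : s = 0 := Subtype.ext h
  rw [this, map_zero]

/-- Two representations of the same element give the same value. -/
theorem loc_wd {x : ℂ} {s t s' t' : R} (hs : φ₀ s ≠ 0) (hx : (s : ℂ) * x = t)
    (hs' : φ₀ s' ≠ 0) (hx' : (s' : ℂ) * x = t') : φ₀ t / φ₀ s = φ₀ t' / φ₀ s' := by
  have e : t * s' = t' * s := by
    apply Subtype.ext
    push_cast
    rw [← hx, ← hx']; ring
  rw [div_eq_div_iff hs hs', ← map_mul, ← map_mul, e]

/-- The value of the extended homomorphism at `x`. -/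
noncomputable def locVal (x : locSubring R φ₀) : k :=
  φ₀ (Classical.choose (Classical.choose_spec x.2)) / φ₀ (Classical.choose x.2)

theorem locVal_eq (x : locSubring R φ₀) {s t : R} (hs : φ₀ s ≠ 0) (hx : (s : ℂ) * (x : ℂ) = t) :
    locVal x = φ₀ t / φ₀ s := by
  have h := Classical.choose_spec (Classical.choose_spec x.2)
  exact loc_wd h.1 h.2 hs hx

variable (R φ₀) in
/-- The extension of `φ₀` to the localisation. -/
noncomputable def locHom : locSubring R φ₀ →+* k where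
  toFun := locVal
  map_one' := by
    have h : ((1 : R) : ℂ) * ((1 : locSubring R φ₀) : ℂ) = ((1 : R) : ℂ) := by simp
    rw [locVal_eq 1 (by rw [map_one]; exact one_ne_zero) h, map_one, div_one]
  map_mul' := by
    rintro ⟨x, s, t, hs, hx⟩ ⟨y, s', t', hs', hy⟩
    have hss : φ₀ (s * s') ≠ 0 := by rw [map_mul]; exact mul_ne_zero hs hs'
    have h : ((s * s' : R) : ℂ) * x * y = ((t * t' : R) : ℂ) := by
      push_cast
      rw [← hx, ← hy]; ring
    rw [locVal_eq (⟨x, s, t, hs, hx⟩ * ⟨y, s', t', hs', hy⟩ : locSubring R φ₀) hss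
      (by rw [← h]; push_cast; ring),
      locVal_eq ⟨x, s, t, hs, hx⟩ hs hx, locVal_eq ⟨y, s', t', hs', hy⟩ hs' hy, map_mul, map_mul]
    field_simp
  map_zero' := by
    have h : ((1 : R) : ℂ) * ((0 : locSubring R φ₀) : ℂ) = ((0 : R) : ℂ) := by simp
    rw [locVal_eq 0 (by rw [map_one]; exact one_ne_zero) h, map_zero, zero_div]
  map_add' := by
    rintro ⟨x, s, t, hs, hx⟩ ⟨y, s', t', hs', hy⟩
    have hss : φ₀ (s * s') ≠ 0 := by rw [map_mul]; exact mul_ne_zero hs hs'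
    have h : ((s * s' : R) : ℂ) * (x + y) = ((t * s' + t' * s : R) : ℂ) := by
      push_cast
      rw [← hx, ← hy]; ring
    rw [locVal_eq (⟨x, s, t, hs, hx⟩ + ⟨y, s', t', hs', hy⟩ : locSubring R φ₀) hss
      (by rw [← h]; push_cast; ring),
      locVal_eq ⟨x, s, t, hs, hx⟩ hs hx, locVal_eq ⟨y, s', t', hs', hy⟩ hs' hy, map_mul, map_add,
      map_mul, map_mul]
    field_simp

theorem locHom_eq (x : locSubring R φ₀) {s t : R} (hs : φ₀ s ≠ 0)
    (hx : (s : ℂ) * (x : ℂ) = t) : locHom R φ₀ x = φ₀ t / φ₀ s :=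
  locVal_eq x hs hx

/-- `locHom` extends `φ₀`. -/
theorem locHom_coe (x : locSubring R φ₀) (r : R) (h : (x : ℂ) = r) : locHom R φ₀ x = φ₀ r := by
  have h1 : ((1 : R) : ℂ) * (x : ℂ) = r := by rw [h]; simp
  rw [locHom_eq x (by rw [map_one]; exact one_ne_zero) h1, map_one, div_one]

/-- The kernel of `locHom`: `x = t / s` with `φ₀ t = 0`. -/
theorem locHom_eq_zero_of (x : locSubring R φ₀) {s t : R} (hs : φ₀ s ≠ 0)
    (hx : (s : ℂ) * (x : ℂ) = t) (ht : φ₀ t = 0) : locHom R φ₀ x = 0 := by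
  rw [locHom_eq x hs hx, ht, zero_div]

end Fermat.Agent.DS.ModL
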