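import Mathlib

/-!
# DS / MODL, abstract part: a congruence eigenvector gives a ring homomorphism

Let `A` be a commutative ring, `V` an `A`-module, `O ⊆ A` a subring, `φ : O →+* k` a ring
homomorphism, and `L'' ≤ L'` two additive subgroups of `V` stable under `O`.  Let `x ∈ L'` be
such that `c • x ∈ L''` forces `φ c = 0`.  The `A`-linear endomorphisms `t` of `V` which
preserve `L'` and `L''` and for which `x` is an eigenvector modulo `L''` with an eigenvalue in
`O` form a subring `eigenSubring`, and "eigenvalue mod `φ`" is a ring homomorphism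
`eigenHom : eigenSubring →+* k`.

In the application (Deligne–Serre) `A = ℂ`, `V = S₂(Γ₁(Nℓ))`, `O` is the ring of `λ`-integral
algebraic numbers, `L'` (resp. `L''`) the forms all of whose diamond translates have
`λ`-integral (resp. `≡ 0 mod λ`) `q`-expansions, and `x = f·E`.
-/

set_option autoImplicit false

namespace Fermat.Agent.DS.ModL

variable {A : Type*} [CommRing A] {V : Type*} [AddCommGroup V] [Module A V]
variable (O : Subring A) {k : Type*} [Field k] (φ : O →+* k)
variable (L' L'' : AddSubgroup V) (x : V)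

/-- `t` preserves `L'` and `L''`, and `x` is an eigenvector of `t` modulo `L''` with eigenvalue
in `O`. -/
def IsCongrEigen (t : Module.End A V) : Prop :=
  (∀ v ∈ L', t v ∈ L') ∧ (∀ v ∈ L'', t v ∈ L'') ∧ ∃ c : O, t x - (c : A) • x ∈ L''

variable {O L' L'' x}

theorem IsCongrEigen.one : IsCongrEigen O L' L'' x 1 := by
  refine ⟨fun v hv => hv, fun v hv => hv, ⟨1, ?_⟩⟩
  simp

theorem IsCongrEigen.zero : IsCongrEigen O L' L'' x 0 := by
  refine ⟨fun v _ => by simp, fun v _ => by simp, ⟨0, ?_⟩⟩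
  simp

theorem IsCongrEigen.add {s t : Module.End A V} (hs : IsCongrEigen O L' L'' x s)
    (ht : IsCongrEigen O L' L'' x t) : IsCongrEigen O L' L'' x (s + t) := by
  obtain ⟨hs1, hs2, cs, hcs⟩ := hs
  obtain ⟨ht1, ht2, ct, hct⟩ := ht
  refine ⟨fun v hv => L'.add_mem (hs1 v hv) (ht1 v hv),
    fun v hv => L''.add_mem (hs2 v hv) (ht2 v hv), ⟨cs + ct, ?_⟩⟩
  have h := L''.add_mem hcs hct
  have e : (s + t) x - ((cs + ct : O) : A) • x = (s x - (cs : A) • x) + (t x - (ct : A) • x) := by
    simp only [LinearMap.add_apply, Subring.coe_add, add_smul]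
    abel
  rw [e]
  exact h

theorem IsCongrEigen.neg {s : Module.End A V} (hs : IsCongrEigen O L' L'' x s) :
    IsCongrEigen O L' L'' x (-s) := by
  obtain ⟨hs1, hs2, cs, hcs⟩ := hs
  refine ⟨fun v hv => by simpa using L'.neg_mem (hs1 v hv),
    fun v hv => by simpa using L''.neg_mem (hs2 v hv), ⟨-cs, ?_⟩⟩
  have h := L''.neg_mem hcs
  have e : (-s) x - ((-cs : O) : A) • x = -(s x - (cs : A) • x) := by
    simp only [LinearMap.neg_apply, Subring.coe_neg, neg_smul]
    abel
  rw [e]
  exact h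

theorem IsCongrEigen.mul (hO'' : ∀ c : O, ∀ v ∈ L'', (c : A) • v ∈ L'')
    {s t : Module.End A V} (hs : IsCongrEigen O L' L'' x s)
    (ht : IsCongrEigen O L' L'' x t) : IsCongrEigen O L' L'' x (s * t) := by
  obtain ⟨hs1, hs2, cs, hcs⟩ := hs
  obtain ⟨ht1, ht2, ct, hct⟩ := ht
  refine ⟨fun v hv => hs1 _ (ht1 v hv), fun v hv => hs2 _ (ht2 v hv), ⟨cs * ct, ?_⟩⟩
  have h1 : s (t x - (ct : A) • x) ∈ L'' := hs2 _ hct
  have h2 : (ct : A) • (s x - (cs : A) • x) ∈ L'' := hO'' ct _ hcs
  have e : (s * t) x - ((cs * ct : O) : A) • x =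
      s (t x - (ct : A) • x) + (ct : A) • (s x - (cs : A) • x) := by
    simp only [Module.End.mul_apply, Subring.coe_mul, map_sub, map_smul, smul_sub, smul_smul]
    rw [mul_comm (ct : A) (cs : A)]
    abel
  rw [e]
  exact L''.add_mem h1 h2

variable (O L' L'' x) in
/-- The subring of endomorphisms for which `x` is a congruence eigenvector. -/
def eigenSubring (hO'' : ∀ c : O, ∀ v ∈ L'', (c : A) • v ∈ L'') : Subring (Module.End A V) where
  carrier := {t | IsCongrEigen O L' L'' x t}
  mul_mem' hs ht := IsCongrEigen.mul hO'' hs ht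
  one_mem' := IsCongrEigen.one
  add_mem' hs ht := IsCongrEigen.add hs ht
  zero_mem' := IsCongrEigen.zero
  neg_mem' hs := IsCongrEigen.neg hs

theorem mem_eigenSubring (hO'' : ∀ c : O, ∀ v ∈ L'', (c : A) • v ∈ L'') {t : Module.End A V} :
    t ∈ eigenSubring O L' L'' x hO'' ↔ IsCongrEigen O L' L'' x t := Iff.rfl

/-- Uniqueness of the eigenvalue modulo `φ`. -/
theorem eigenvalue_unique (hker : ∀ c : O, (c : A) • x ∈ L'' → φ c = 0)
    {t : Module.End A V} {c c' : O} (hc : t x - (c : A) • x ∈ L'')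
    (hc' : t x - (c' : A) • x ∈ L'') : φ c = φ c' := by
  have h := L''.sub_mem hc' hc
  have e : (t x - (c' : A) • x) - (t x - (c : A) • x) = ((c - c' : O) : A) • x := by
    push_cast
    rw [sub_smul]
    abel
  rw [e] at h
  have := hker _ h
  rw [map_sub, sub_eq_zero] at this
  exact this

/-- The eigenvalue of `t` on `x`, modulo `φ`. -/
noncomputable def eigenVal (hO'' : ∀ c : O, ∀ v ∈ L'', (c : A) • v ∈ L'')
    (t : eigenSubring O L' L'' x hO'') : k :=
  φ (Classical.choose t.2.2.2)

theorem eigenVal_eq (hO'' : ∀ c : O, ∀ v ∈ L'', (c : A) • v ∈ L'')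
    (hker : ∀ c : O, (c : A) • x ∈ L'' → φ c = 0)
    (t : eigenSubring O L' L'' x hO'') {c : O} (hc : (t : Module.End A V) x - (c : A) • x ∈ L'') :
    eigenVal φ hO'' t = φ c :=
  eigenvalue_unique φ hker (Classical.choose_spec t.2.2.2) hc

/-- **Congruence eigenvector ⇒ ring homomorphism.** -/
noncomputable def eigenHom (hO'' : ∀ c : O, ∀ v ∈ L'', (c : A) • v ∈ L'')
    (hker : ∀ c : O, (c : A) • x ∈ L'' → φ c = 0) :
    eigenSubring O L' L'' x hO'' →+* k where
  toFun := eigenVal φ hO''
  map_one' := by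
    have h : ((1 : eigenSubring O L' L'' x hO'') : Module.End A V) x - ((1 : O) : A) • x ∈ L'' := by
      simp
    rw [eigenVal_eq φ hO'' hker _ h, map_one]
  map_mul' s t := by
    obtain ⟨cs, hcs⟩ := s.2.2.2
    obtain ⟨ct, hct⟩ := t.2.2.2
    have h1 : (s : Module.End A V) ((t : Module.End A V) x - (ct : A) • x) ∈ L'' := s.2.2.1 _ hct
    have h2 : (ct : A) • ((s : Module.End A V) x - (cs : A) • x) ∈ L'' := hO'' ct _ hcs
    have e : ((s * t : eigenSubring O L' L'' x hO'') : Module.End A V) x -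
        ((cs * ct : O) : A) • x =
        (s : Module.End A V) ((t : Module.End A V) x - (ct : A) • x) +
          (ct : A) • ((s : Module.End A V) x - (cs : A) • x) := by
      simp only [Subring.coe_mul, Module.End.mul_apply, map_sub, map_smul, smul_sub, smul_smul]
      rw [mul_comm (ct : A) (cs : A)]
      abel
    have h : ((s * t : eigenSubring O L' L'' x hO'') : Module.End A V) x -
        ((cs * ct : O) : A) • x ∈ L'' := by
      rw [e]; exact L''.add_mem h1 h2
    rw [eigenVal_eq φ hO'' hker _ h, eigenVal_eq φ hO'' hker s hcs,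
      eigenVal_eq φ hO'' hker t hct, map_mul]
  map_zero' := by
    have h : ((0 : eigenSubring O L' L'' x hO'') : Module.End A V) x - ((0 : O) : A) • x ∈ L'' := by
      simp
    rw [eigenVal_eq φ hO'' hker _ h, map_zero]
  map_add' s t := by
    obtain ⟨cs, hcs⟩ := s.2.2.2
    obtain ⟨ct, hct⟩ := t.2.2.2
    have e : ((s + t : eigenSubring O L' L'' x hO'') : Module.End A V) x -
        ((cs + ct : O) : A) • x =
        ((s : Module.End A V) x - (cs : A) • x) + ((t : Module.End A V) x - (ct : A) • x) := by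
      simp only [Subring.coe_add, LinearMap.add_apply, add_smul]
      abel
    have h : ((s + t : eigenSubring O L' L'' x hO'') : Module.End A V) x -
        ((cs + ct : O) : A) • x ∈ L'' := by
      rw [e]; exact L''.add_mem hcs hct
    rw [eigenVal_eq φ hO'' hker _ h, eigenVal_eq φ hO'' hker s hcs,
      eigenVal_eq φ hO'' hker t hct, map_add]

theorem eigenHom_apply (hO'' : ∀ c : O, ∀ v ∈ L'', (c : A) • v ∈ L'')
    (hker : ∀ c : O, (c : A) • x ∈ L'' → φ c = 0)
    (t : eigenSubring O L' L'' x hO'') {c : O} (hc : (t : Module.End A V) x - (c : A) • x ∈ L'') :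
    eigenHom φ hO'' hker t = φ c :=
  eigenVal_eq φ hO'' hker t hc

/-- The `ℤ`-subalgebra generated by a set of congruence-eigen operators lies in
`eigenSubring`. -/
theorem adjoin_le_eigenSubring (hO'' : ∀ c : O, ∀ v ∈ L'', (c : A) • v ∈ L'')
    (gens : Set (Module.End A V)) (hgens : ∀ t ∈ gens, IsCongrEigen O L' L'' x t) :
    ∀ t ∈ Algebra.adjoin ℤ gens, t ∈ eigenSubring O L' L'' x hO'' := by
  intro t ht
  have hle : Algebra.adjoin ℤ gens ≤ subalgebraOfSubring (eigenSubring O L' L'' x hO'') :=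
    Algebra.adjoin_le fun t ht => hgens t ht
  exact hle ht

/-- **Consumer form.**  Given generators `gens` which preserve `L'`, `L''` and have `x` as a
congruence eigenvector with eigenvalues `c t ∈ O`, there is a ring homomorphism from the
`ℤ`-algebra they generate to `k` sending each generator `t` to `φ (c t)`. -/
theorem exists_ringHom_of_congr_eigen (hO'' : ∀ c : O, ∀ v ∈ L'', (c : A) • v ∈ L'')
    (hker : ∀ c : O, (c : A) • x ∈ L'' → φ c = 0)
    (gens : Set (Module.End A V))
    (h' : ∀ t ∈ gens, ∀ v ∈ L', t v ∈ L') (h'' : ∀ t ∈ gens, ∀ v ∈ L'', t v ∈ L'')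
    (c : Module.End A V → O) (hc : ∀ t ∈ gens, t x - (c t : A) • x ∈ L'') :
    ∃ θ : Algebra.adjoin ℤ gens →+* k,
      ∀ (t : Module.End A V) (ht : t ∈ gens), θ ⟨t, Algebra.subset_adjoin ht⟩ = φ (c t) := by
  have hgens : ∀ t ∈ gens, IsCongrEigen O L' L'' x t :=
    fun t ht => ⟨h' t ht, h'' t ht, ⟨c t, hc t ht⟩⟩
  have hmem := adjoin_le_eigenSubring hO'' gens hgens
  let incl : Algebra.adjoin ℤ gens →+* eigenSubring O L' L'' x hO'' :=
    { toFun := fun t => ⟨t.1, hmem t.1 t.2⟩
      map_one' := rfl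
      map_mul' := fun _ _ => rfl
      map_zero' := rfl
      map_add' := fun _ _ => rfl }
  refine ⟨(eigenHom φ hO'' hker).comp incl, fun t ht => ?_⟩
  exact eigenHom_apply φ hO'' hker ⟨t, hmem t (Algebra.subset_adjoin ht)⟩ (hc t ht)

end Fermat.Agent.DS.ModL
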