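import Mathlib
import Fermat.Prelude.Def_FLTPrelim_Modularity
import Fermat.Agent.DS.ModL.Abstract

/-!
# DS / MODL: the lattices `L'' ⊆ L'` in `S_k(Γ₁(M))`

`HeckePkg M k` is the list of properties of the diamond operators `⟨d⟩` and the Hecke operators
`T_p` (`p ∤ M`) on `S_k(Γ₁(M))` that the mod-`ℓ` argument uses (it is an interface: the operators
themselves are constructed in `DS/Hecke1`).

For an additive subgroup `I` of `ℂ`, `lat P I` is the group of cusp forms all of whose diamond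
translates have `q`-expansion coefficients in `I`.  It is stable under `⟨d⟩` and `T_p`.
-/

set_option autoImplicit false

namespace Fermat.Agent.DS.ModL

open CongruenceSubgroup ModularFormClass UpperHalfPlane
open scoped MatrixGroups ModularForm

/-- `1` is a strict period of `Γ₁(M)` (local copy, to keep this file light). -/
theorem one_mem_strictPeriods_Gamma1_aux (M : ℕ) :
    (1 : ℝ) ∈ (Subgroup.map (Matrix.SpecialLinearGroup.mapGL ℝ) (Gamma1 M)).strictPeriods := by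
  have hT : ModularGroup.T ∈ Gamma1 M := by
    rw [Gamma1_mem]
    simp [ModularGroup.T]
  rw [Subgroup.strictPeriods_eq_zmultiples_one_of_T_mem hT]
  exact AddSubgroup.mem_zmultiples (1 : ℝ)

section qCoeff

variable {M : ℕ} {k : ℤ}

theorem qCoeff_add_cusp (f g : CuspForm (Gamma1 M) k) (n : ℕ) :
    qCoeff (⇑(f + g)) n = qCoeff f n + qCoeff g n := by
  rw [FunLike.coe_add]
  unfold qCoeff
  rw [ModularForm.qExpansion_add one_pos (one_mem_strictPeriods_Gamma1_aux M) f g, map_add]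

theorem qCoeff_smul_cusp (c : ℂ) (f : CuspForm (Gamma1 M) k) (n : ℕ) :
    qCoeff (⇑(c • f)) n = c * qCoeff f n := by
  rw [FunLike.coe_smul]
  unfold qCoeff
  rw [ModularForm.qExpansion_smul one_pos (one_mem_strictPeriods_Gamma1_aux M) c f]
  simp

theorem qCoeff_zero_cusp (n : ℕ) : qCoeff (⇑(0 : CuspForm (Gamma1 M) k)) n = 0 := by
  have h := qCoeff_smul_cusp (0 : ℂ) (0 : CuspForm (Gamma1 M) k) n
  rw [zero_smul, zero_mul] at h
  exact h

theorem qCoeff_neg_cusp (f : CuspForm (Gamma1 M) k) (n : ℕ) :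
    qCoeff (⇑(-f)) n = -qCoeff f n := by
  have h := qCoeff_smul_cusp (-1 : ℂ) f n
  rw [neg_one_smul, neg_one_mul] at h
  exact h

theorem qCoeff_sub_cusp (f g : CuspForm (Gamma1 M) k) (n : ℕ) :
    qCoeff (⇑(f - g)) n = qCoeff f n - qCoeff g n := by
  rw [sub_eq_add_neg, qCoeff_add_cusp, qCoeff_neg_cusp, sub_eq_add_neg]

end qCoeff

/-- The properties of the diamond and Hecke operators on `S_k(Γ₁(M))` used by MODL. -/
structure HeckePkg (M : ℕ) (k : ℤ) where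
  /-- the diamond operators -/
  dia : (ZMod M)ˣ → CuspForm (Gamma1 M) k →ₗ[ℂ] CuspForm (Gamma1 M) k
  /-- the Hecke operators (only used at primes not dividing `M`) -/
  T : ℕ → CuspForm (Gamma1 M) k →ₗ[ℂ] CuspForm (Gamma1 M) k
  dia_mul : ∀ (d d' : (ZMod M)ˣ) (g : CuspForm (Gamma1 M) k), dia (d * d') g = dia d (dia d' g)
  T_dia : ∀ p : ℕ, p.Prime → ¬ p ∣ M → ∀ (d : (ZMod M)ˣ) (g : CuspForm (Gamma1 M) k),
    T p (dia d g) = dia d (T p g)
  dia_slash : ∀ (d : (ZMod M)ˣ) (γ : SL(2, ℤ)), γ ∈ Gamma0 M → ((γ 1 1 : ℤ) : ZMod M) = d →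
    ∀ g : CuspForm (Gamma1 M) k, ⇑(dia d g) = ⇑g ∣[k] γ
  qCoeff_T : ∀ p : ℕ, p.Prime → ¬ p ∣ M → ∀ d : (ZMod M)ˣ, (d : ZMod M) = (p : ZMod M) →
    ∀ (g : CuspForm (Gamma1 M) k) (n : ℕ),
      qCoeff (⇑(T p g)) n = qCoeff g (p * n) +
        (p : ℂ) ^ (k - 1) * (if p ∣ n then qCoeff (⇑(dia d g)) (n / p) else 0)

namespace HeckePkg

variable {M : ℕ} {k : ℤ} (P : HeckePkg M k)

/-- Cusp forms all of whose diamond translates have `q`-coefficients in `I`. -/
def lat (I : AddSubgroup ℂ) : AddSubgroup (CuspForm (Gamma1 M) k) where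
  carrier := {g | ∀ (d : (ZMod M)ˣ) (n : ℕ), qCoeff (⇑(P.dia d g)) n ∈ I}
  add_mem' {a b} ha hb d n := by
    rw [map_add, qCoeff_add_cusp]
    exact I.add_mem (ha d n) (hb d n)
  zero_mem' d n := by
    rw [map_zero, qCoeff_zero_cusp]
    exact I.zero_mem
  neg_mem' {a} ha d n := by
    rw [map_neg, qCoeff_neg_cusp]
    exact I.neg_mem (ha d n)

theorem mem_lat {I : AddSubgroup ℂ} {g : CuspForm (Gamma1 M) k} :
    g ∈ P.lat I ↔ ∀ (d : (ZMod M)ˣ) (n : ℕ), qCoeff (⇑(P.dia d g)) n ∈ I := Iff.rfl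

theorem lat_mono {I J : AddSubgroup ℂ} (h : I ≤ J) : P.lat I ≤ P.lat J :=
  fun _ hg d n => h (hg d n)

theorem dia_mem_lat {I : AddSubgroup ℂ} (d : (ZMod M)ˣ) {g : CuspForm (Gamma1 M) k}
    (hg : g ∈ P.lat I) : P.dia d g ∈ P.lat I := by
  intro d' n
  rw [← P.dia_mul]
  exact hg _ n

theorem smul_mem_lat {I : AddSubgroup ℂ} {c : ℂ} (hc : ∀ x ∈ I, c * x ∈ I)
    {g : CuspForm (Gamma1 M) k} (hg : g ∈ P.lat I) : c • g ∈ P.lat I := by
  intro d n
  rw [map_smul, qCoeff_smul_cusp]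
  exact hc _ (hg d n)

theorem T_mem_lat (hk : 1 ≤ k) {I : AddSubgroup ℂ} {p : ℕ} (hp : p.Prime) (hpM : ¬ p ∣ M)
    {g : CuspForm (Gamma1 M) k} (hg : g ∈ P.lat I) : P.T p g ∈ P.lat I := by
  intro d n
  rw [← P.T_dia p hp hpM]
  have hcop : Nat.Coprime p M := (Nat.Prime.coprime_iff_not_dvd hp).mpr hpM
  rw [P.qCoeff_T p hp hpM (ZMod.unitOfCoprime p hcop) (ZMod.coe_unitOfCoprime p hcop)]
  refine I.add_mem (hg d _) ?_
  split_ifs with h
  · obtain ⟨j, hj⟩ : ∃ j : ℕ, k - 1 = (j : ℤ) := ⟨(k - 1).toNat, by omega⟩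
    rw [hj, zpow_natCast, ← Nat.cast_pow, ← nsmul_eq_mul]
    refine I.nsmul_mem ?_ _
    rw [← P.dia_mul]
    exact hg _ _
  · rw [mul_zero]
    exact I.zero_mem

end HeckePkg

end Fermat.Agent.DS.ModL
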