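import Mathlib
import Fermat.Prelude.Def_FLTPrelim_Modularity
import Fermat.Agent.DS.ModL.Abstract
import Fermat.Agent.DS.ModL.Lattice

/-!
# DS / MODL: the mod-`ℓ` eigen-character attached to `g·E`

`g` is a weight one cusp form on `Γ₁(N)` with nebentypus `ε` whose `q`-coefficients lie in a
subring `O ⊆ ℂ` and satisfy the Hecke relations; `E a` (`a ∈ ℤ`, `ℓ ∤ a`) is a family of weight
one modular forms on `Γ₁(ℓ)` permuted by `Γ₀(ℓ)` (`E a ∣ γ = E (a·γ₁₁)`), with coefficients in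
`O`, all non-constant coefficients killed by `φ : O →+* k`, and `a · φ(E a)(0) = u₀ ≠ 0`
(`k` a field of characteristic `ℓ`).

Then `x := g · E 1 ∈ S₂(Γ₁(Nℓ))` is a congruence eigenvector of all `T_p` (`p ∤ Nℓ`) and all
diamond operators, and we get a ring homomorphism `θ` from the `ℤ`-algebra generated by these
operators to `k` with `θ(T_p) = φ(a_p)` and `d · θ(⟨d⟩) = φ(ε(d))`.
-/

set_option autoImplicit false

namespace Fermat.Agent.DS.ModL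

open CongruenceSubgroup ModularFormClass UpperHalfPlane
open scoped MatrixGroups ModularForm

/-! ### Levels, restriction, products -/

theorem Gamma1_le_of_dvd {N M : ℕ} (h : N ∣ M) : Gamma1 M ≤ Gamma1 N := by
  intro A hA
  rw [Gamma1_mem] at hA ⊢
  obtain ⟨h1, h2, h3⟩ := hA
  have e : ∀ x : ℤ, ZMod.castHom h (ZMod N) ((x : ℤ) : ZMod M) = ((x : ℤ) : ZMod N) :=
    fun x => map_intCast _ x
  refine ⟨?_, ?_, ?_⟩
  · rw [← e, h1, map_one]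
  · rw [← e, h2, map_one]
  · rw [← e, h3, map_zero]

theorem Gamma0_le_of_dvd {N M : ℕ} (h : N ∣ M) : Gamma0 M ≤ Gamma0 N := by
  intro A hA
  rw [Gamma0_mem] at hA ⊢
  have e : ∀ x : ℤ, ZMod.castHom h (ZMod N) ((x : ℤ) : ZMod M) = ((x : ℤ) : ZMod N) :=
    fun x => map_intCast _ x
  rw [← e, hA, map_zero]

/-- Restriction of a cusp form to a smaller group. -/
def cuspRestrict {Γ Γ' : Subgroup (GL (Fin 2) ℝ)} {k : ℤ} (h : Γ' ≤ Γ) (f : CuspForm Γ k) :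
    CuspForm Γ' k where
  toFun := f
  slash_action_eq' A hA := f.slash_action_eq' A (h hA)
  holo' := f.holo'
  zero_at_cusps' hc := f.zero_at_cusps' (hc.mono h)

/-- Restriction of a modular form to a smaller group. -/
def modRestrict {Γ Γ' : Subgroup (GL (Fin 2) ℝ)} {k : ℤ} (h : Γ' ≤ Γ) (f : ModularForm Γ k) :
    ModularForm Γ' k where
  toFun := f
  slash_action_eq' A hA := f.slash_action_eq' A (h hA)
  holo' := f.holo'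
  bdd_at_cusps' hc := f.bdd_at_cusps' (hc.mono h)

/-- The product of a weight one cusp form of level `N` and a weight one modular form of level
`ℓ`, as a weight two cusp form of level `N ℓ`. -/
noncomputable def prodForm {N ℓ : ℕ} (g : CuspForm (Gamma1 N) 1) (E : ModularForm (Gamma1 ℓ) 1) :
    CuspForm (Gamma1 (N * ℓ)) 2 :=
  CuspForm.mcast (by norm_num : (1 : ℤ) + 1 = 2)
    ((cuspRestrict (Subgroup.map_mono (Gamma1_le_of_dvd (dvd_mul_right N ℓ))) g).mulModularForm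
      (modRestrict (Subgroup.map_mono (Gamma1_le_of_dvd (dvd_mul_left ℓ N))) E))

theorem coe_prodForm {N ℓ : ℕ} (g : CuspForm (Gamma1 N) 1) (E : ModularForm (Gamma1 ℓ) 1) :
    ⇑(prodForm g E) = ⇑g * ⇑E := rfl

theorem qExpansion_prodForm {N ℓ : ℕ} (g : CuspForm (Gamma1 N) 1) (E : ModularForm (Gamma1 ℓ) 1) :
    qExpansion 1 (⇑(prodForm g E)) = qExpansion 1 g * qExpansion 1 E := by
  rw [coe_prodForm]
  exact qExpansion_mul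
    (ModularFormClass.analyticAt_cuspFunction_zero g one_pos (one_mem_strictPeriods_Gamma1_aux N))
    (ModularFormClass.analyticAt_cuspFunction_zero E one_pos (one_mem_strictPeriods_Gamma1_aux ℓ))

theorem qCoeff_prodForm {N ℓ : ℕ} (g : CuspForm (Gamma1 N) 1) (E : ModularForm (Gamma1 ℓ) 1)
    (n : ℕ) : qCoeff (⇑(prodForm g E)) n =
      ∑ x ∈ Finset.HasAntidiagonal.antidiagonal n, qCoeff g x.1 * qCoeff E x.2 := by
  unfold qCoeff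
  rw [qExpansion_prodForm, PowerSeries.coeff_mul]

theorem prodForm_slash {N ℓ : ℕ} (g : CuspForm (Gamma1 N) 1) (E : ModularForm (Gamma1 ℓ) 1)
    (γ : SL(2, ℤ)) : ⇑(prodForm g E) ∣[(2 : ℤ)] γ = (⇑g ∣[(1 : ℤ)] γ) * (⇑E ∣[(1 : ℤ)] γ) := by
  rw [coe_prodForm]
  exact ModularForm.mul_slash_SL2 1 1 γ g E

theorem exists_Gamma0_lowerRight (M : ℕ) [NeZero M] (d : (ZMod M)ˣ) :
    ∃ γ : SL(2, ℤ), γ ∈ Gamma0 M ∧ ((γ 1 1 : ℤ) : ZMod M) = d := by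
  have hcop : Nat.Coprime (d : ZMod M).val M := ZMod.val_coe_unit_coprime d
  have hcop' : IsCoprime ((d : ZMod M).val : ℤ) (M : ℤ) := Nat.isCoprime_iff_coprime.mpr hcop
  obtain ⟨a, b, hab⟩ := hcop'
  have hdet : (!![a, -b; (M : ℤ), ((d : ZMod M).val : ℤ)] : Matrix (Fin 2) (Fin 2) ℤ).det = 1 := by
    rw [Matrix.det_fin_two_of]
    linarith
  let γ : SL(2, ℤ) := ⟨!![a, -b; (M : ℤ), ((d : ZMod M).val : ℤ)], hdet⟩
  refine ⟨γ, ?_, ?_⟩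
  · rw [Gamma0_mem]
    show (((M : ℤ) : ℤ) : ZMod M) = 0
    simp
  · show ((((d : ZMod M).val : ℤ) : ℤ) : ZMod M) = d
    simp

/-! ### Arithmetic of residues -/

theorem intCast_zmod_eq_of_mul_left {N ℓ : ℕ} {x y : ℤ}
    (h : (x : ZMod (N * ℓ)) = (y : ZMod (N * ℓ))) : (x : ZMod ℓ) = (y : ZMod ℓ) := by
  have e : ∀ z : ℤ, ZMod.castHom (dvd_mul_left ℓ N) (ZMod ℓ) ((z : ℤ) : ZMod (N * ℓ)) =
      ((z : ℤ) : ZMod ℓ) := fun z => map_intCast _ z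
  rw [← e, h, e]

theorem intCast_zmod_eq_of_mul_right {N ℓ : ℕ} {x y : ℤ}
    (h : (x : ZMod (N * ℓ)) = (y : ZMod (N * ℓ))) : (x : ZMod N) = (y : ZMod N) := by
  have e : ∀ z : ℤ, ZMod.castHom (dvd_mul_right N ℓ) (ZMod N) ((z : ℤ) : ZMod (N * ℓ)) =
      ((z : ℤ) : ZMod N) := fun z => map_intCast _ z
  rw [← e, h, e]

theorem intCast_charP_eq {N ℓ : ℕ} (k : Type*) [Field k] [CharP k ℓ] {x y : ℤ}
    (h : (x : ZMod (N * ℓ)) = (y : ZMod (N * ℓ))) : (x : k) = (y : k) := by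
  have h1 := intCast_zmod_eq_of_mul_left h
  exact (CharP.intCast_eq_intCast k ℓ).mpr ((ZMod.intCast_eq_intCast_iff x y ℓ).mp h1)

theorem not_dvd_of_unit {N ℓ : ℕ} (hℓ : ℓ.Prime) (d : (ZMod (N * ℓ))ˣ) {x : ℤ}
    (hx : (x : ZMod (N * ℓ)) = d) : ¬ (ℓ : ℤ) ∣ x := by
  intro hdvd
  have : Fact ℓ.Prime := ⟨hℓ⟩
  have e : ZMod.castHom (dvd_mul_left ℓ N) (ZMod ℓ) ((x : ℤ) : ZMod (N * ℓ)) = ((x : ℤ) : ZMod ℓ) :=
    map_intCast _ x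
  have h0 : ((x : ℤ) : ZMod ℓ) = 0 := (ZMod.intCast_zmod_eq_zero_iff_dvd x ℓ).mpr hdvd
  have hu : IsUnit (ZMod.castHom (dvd_mul_left ℓ N) (ZMod ℓ) (d : ZMod (N * ℓ))) :=
    d.isUnit.map _
  rw [← hx, e, h0] at hu
  exact not_isUnit_zero hu

theorem intCast_ne_zero_of_not_dvd {ℓ : ℕ} (k : Type*) [Field k] [CharP k ℓ] {x : ℤ}
    (h : ¬ (ℓ : ℤ) ∣ x) : (x : k) ≠ 0 :=
  fun h0 => h ((CharP.intCast_eq_zero_iff k ℓ x).mp h0)

theorem exists_int_inverse {ℓ : ℕ} (hℓ : ℓ.Prime) (k : Type*) [Field k] [CharP k ℓ] {x : ℤ}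
    (h : ¬ (ℓ : ℤ) ∣ x) : ∃ w : ℤ, (w : k) * (x : k) = 1 := by
  have hc : IsCoprime x (ℓ : ℤ) :=
    ((Nat.prime_iff_prime_int.mp hℓ).coprime_iff_not_dvd.mpr h).symm
  obtain ⟨a, b, hab⟩ := hc
  refine ⟨a, ?_⟩
  have h1 : ((a * x + b * (ℓ : ℤ) : ℤ) : k) = 1 := by rw [hab]; simp
  push_cast at h1
  rw [CharP.cast_eq_zero k ℓ, mul_zero, add_zero] at h1
  exact h1

theorem one_not_dvd {ℓ : ℕ} (hℓ : ℓ.Prime) : ¬ (ℓ : ℤ) ∣ 1 := by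
  intro h
  have := Int.natAbs_dvd_natAbs.mpr h
  simp only [Int.natAbs_natCast, Int.natAbs_one, Nat.dvd_one] at this
  exact hℓ.one_lt.ne' this

theorem mul_not_dvd {ℓ : ℕ} (hℓ : ℓ.Prime) {a x : ℤ} (ha : ¬ (ℓ : ℤ) ∣ a) (hx : ¬ (ℓ : ℤ) ∣ x) :
    ¬ (ℓ : ℤ) ∣ a * x := by
  intro h
  rcases (Nat.prime_iff_prime_int.mp hℓ).dvd_or_dvd h with h1 | h1
  · exact ha h1
  · exact hx h1

/-! ### The setup -/

/-- The data of the mod-`ℓ` argument, with all coefficients already lifted to `O`. -/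
structure Setup (N ℓ : ℕ) (O : Subring ℂ) (k : Type*) [Field k] (φ : O →+* k) where
  ε : DirichletCharacter ℂ N
  g : CuspForm (Gamma1 N) 1
  E : ℤ → ModularForm (Gamma1 ℓ) 1
  G : ℕ → O
  eO : ZMod N → O
  Ec : ℤ → ℕ → O
  hG : ∀ n, (G n : ℂ) = qCoeff g n
  heO : ∀ x, (eO x : ℂ) = ε x
  hEc : ∀ a : ℤ, ¬ (ℓ : ℤ) ∣ a → ∀ n, (Ec a n : ℂ) = qCoeff (E a) n
  hG1 : G 1 = 1
  hGT : ∀ p : ℕ, p.Prime → ¬ p ∣ N → ∀ n : ℕ,
    G (p * n) + eO (p : ZMod N) * (if p ∣ n then G (n / p) else 0) = G p * G n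
  hgε : ∀ γ : SL(2, ℤ), γ ∈ Gamma0 N → ⇑g ∣[(1 : ℤ)] γ = ε ((γ 1 1 : ℤ) : ZMod N) • ⇑g
  hE_slash : ∀ a : ℤ, ¬ (ℓ : ℤ) ∣ a → ∀ γ : SL(2, ℤ), γ ∈ Gamma0 ℓ →
    ⇑(E a) ∣[(1 : ℤ)] γ = ⇑(E (a * γ 1 1))
  hEpos : ∀ a : ℤ, ¬ (ℓ : ℤ) ∣ a → ∀ n, 1 ≤ n → φ (Ec a n) = 0
  u₀ : k
  hu₀ : u₀ ≠ 0
  hE0 : ∀ a : ℤ, ¬ (ℓ : ℤ) ∣ a → (a : k) * φ (Ec a 0) = u₀

/-- `x ∈ ℂ` lies in `O` and is killed by `φ`. -/
def kerSub (O : Subring ℂ) {k : Type*} [Field k] (φ : O →+* k) : AddSubgroup ℂ where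
  carrier := {x | ∃ c : O, φ c = 0 ∧ (c : ℂ) = x}
  add_mem' := by
    rintro _ _ ⟨a, ha, rfl⟩ ⟨b, hb, rfl⟩
    exact ⟨a + b, by rw [map_add, ha, hb, add_zero], by push_cast; rfl⟩
  zero_mem' := ⟨0, map_zero φ, rfl⟩
  neg_mem' := by
    rintro _ ⟨a, ha, rfl⟩
    exact ⟨-a, by rw [map_neg, ha, neg_zero], by push_cast; rfl⟩

theorem mem_kerSub {O : Subring ℂ} {k : Type*} [Field k] {φ : O →+* k} {x : ℂ} :
    x ∈ kerSub O φ ↔ ∃ c : O, φ c = 0 ∧ (c : ℂ) = x := Iff.rfl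

theorem coe_mem_kerSub {O : Subring ℂ} {k : Type*} [Field k] {φ : O →+* k} {c : O} :
    (c : ℂ) ∈ kerSub O φ ↔ φ c = 0 := by
  constructor
  · rintro ⟨c', hc', h⟩
    rw [← Subtype.ext h]
    exact hc'
  · intro h
    exact ⟨c, h, rfl⟩

namespace Setup

variable {N ℓ : ℕ} {O : Subring ℂ} {k : Type*} [Field k] {φ : O →+* k} (S : Setup N ℓ O k φ)

/-- The product form `g · E a`. -/
noncomputable def h (a : ℤ) : CuspForm (Gamma1 (N * ℓ)) 2 := prodForm S.g (S.E a)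

/-- The coefficients of `g · E a`, in `O`. -/
def H (a : ℤ) (n : ℕ) : O := ∑ x ∈ Finset.HasAntidiagonal.antidiagonal n, S.G x.1 * S.Ec a x.2

theorem qCoeff_h {a : ℤ} (ha : ¬ (ℓ : ℤ) ∣ a) (n : ℕ) : qCoeff (⇑(S.h a)) n = (S.H a n : ℂ) := by
  unfold h H
  rw [qCoeff_prodForm]
  push_cast
  refine Finset.sum_congr rfl fun x _ => ?_
  rw [S.hG, S.hEc a ha]

theorem phi_H {a : ℤ} (ha : ¬ (ℓ : ℤ) ∣ a) (n : ℕ) : φ (S.H a n) = φ (S.G n) * φ (S.Ec a 0) := by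
  unfold H
  rw [map_sum]
  rw [Finset.sum_eq_single (n, 0)]
  · rw [map_mul]
  · intro x hx hne
    rw [map_mul]
    have hx2 : 1 ≤ x.2 := by
      rcases Nat.eq_zero_or_pos x.2 with h0 | h0
      · exfalso
        apply hne
        rw [Finset.HasAntidiagonal.mem_antidiagonal] at hx
        ext
        · simp only; omega
        · simp only; exact h0
      · exact h0
    rw [S.hEpos a ha x.2 hx2, mul_zero]
  · intro hn
    exact absurd (Finset.HasAntidiagonal.mem_antidiagonal.mpr (by simp)) hn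

end Setup

theorem smul_kerSub {O : Subring ℂ} {k : Type*} [Field k] {φ : O →+* k} (c : O) :
    ∀ y ∈ kerSub O φ, (c : ℂ) * y ∈ kerSub O φ := by
  rintro _ ⟨b, hb, rfl⟩
  exact ⟨c * b, by rw [map_mul, hb, mul_zero], by push_cast; rfl⟩

namespace Setup

variable {N ℓ : ℕ} {O : Subring ℂ} {k : Type*} [Field k] {φ : O →+* k} (S : Setup N ℓ O k φ)
variable (P : HeckePkg (N * ℓ) 2)

/-- The diamond operators permute the products `g · E a` up to the character. -/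
theorem dia_h [NeZero N] [NeZero ℓ] (d : (ZMod (N * ℓ))ˣ) :
    ∃ x : ℤ, ((x : ℤ) : ZMod (N * ℓ)) = d ∧ ∀ a : ℤ, ¬ (ℓ : ℤ) ∣ a →
      P.dia d (S.h a) = S.ε ((x : ℤ) : ZMod N) • S.h (a * x) := by
  obtain ⟨γ, hγ0, hγd⟩ := exists_Gamma0_lowerRight (N * ℓ) d
  refine ⟨γ 1 1, hγd, fun a ha => ?_⟩
  apply DFunLike.coe_injective
  rw [P.dia_slash d γ hγ0 hγd, FunLike.coe_smul]
  unfold h
  rw [prodForm_slash, S.hgε γ (Gamma0_le_of_dvd (dvd_mul_right N ℓ) hγ0),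
    S.hE_slash a ha γ (Gamma0_le_of_dvd (dvd_mul_left ℓ N) hγ0), coe_prodForm, smul_mul_assoc]

variable [NeZero N] [NeZero ℓ] (hℓ : ℓ.Prime)
include hℓ

theorem h_mem_lat {a : ℤ} (ha : ¬ (ℓ : ℤ) ∣ a) : S.h a ∈ P.lat O.toAddSubgroup := by
  intro d n
  obtain ⟨x, hx, hdia⟩ := S.dia_h P d
  have hxl : ¬ (ℓ : ℤ) ∣ x := not_dvd_of_unit hℓ d hx
  rw [hdia a ha, qCoeff_smul_cusp, S.qCoeff_h (mul_not_dvd hℓ ha hxl), ← S.heO]
  exact O.mul_mem (S.eO _).2 (S.H _ _).2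

variable [CharP k ℓ]

omit [NeZero N] [NeZero ℓ] in
/-- `p · φ(E_{a x})(0) = φ(E_a)(0)` when `x ≡ p`. -/
theorem phi_Ec_mul {a x : ℤ} (ha : ¬ (ℓ : ℤ) ∣ a) (hx : ¬ (ℓ : ℤ) ∣ x) :
    (x : k) * φ (S.Ec (a * x) 0) = φ (S.Ec a 0) := by
  have h1 := S.hE0 (a * x) (mul_not_dvd hℓ ha hx)
  have h2 := S.hE0 a ha
  have ha0 : (a : k) ≠ 0 := intCast_ne_zero_of_not_dvd k ha
  push_cast at h1
  apply mul_left_cancel₀ ha0
  rw [h2, ← h1]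
  ring

/-- The coefficientwise congruence `T_p (g E_a) ≡ a_p · g E_a`. -/
theorem T_congr {p : ℕ} (hp : p.Prime) (hpM : ¬ p ∣ N * ℓ) {a : ℤ} (ha : ¬ (ℓ : ℤ) ∣ a) (n : ℕ) :
    qCoeff (⇑(P.T p (S.h a) - (S.G p : ℂ) • S.h a)) n ∈ kerSub O φ := by
  have hcop : Nat.Coprime p (N * ℓ) := (Nat.Prime.coprime_iff_not_dvd hp).mpr hpM
  have hpN : ¬ p ∣ N := fun h => hpM (Dvd.dvd.mul_right h ℓ)
  obtain ⟨x, hx, hdia⟩ := S.dia_h P (ZMod.unitOfCoprime p hcop)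
  have hxl : ¬ (ℓ : ℤ) ∣ x := not_dvd_of_unit hℓ _ hx
  rw [ZMod.coe_unitOfCoprime] at hx
  have hx' : ((x : ℤ) : ZMod (N * ℓ)) = (((p : ℕ) : ℤ) : ZMod (N * ℓ)) := by
    rw [hx]; simp
  have hxN : ((x : ℤ) : ZMod N) = (p : ZMod N) := by
    rw [intCast_zmod_eq_of_mul_right hx']; simp
  have hxk : (x : k) = (p : k) := by
    rw [intCast_charP_eq k hx']; simp
  rw [qCoeff_sub_cusp, qCoeff_smul_cusp,
    P.qCoeff_T p hp hpM (ZMod.unitOfCoprime p hcop) (ZMod.coe_unitOfCoprime p hcop),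
    hdia a ha, qCoeff_smul_cusp, S.qCoeff_h ha, S.qCoeff_h ha,
    S.qCoeff_h (mul_not_dvd hℓ ha hxl), hxN, ← S.heO]
  have e : (S.H a (p * n) : ℂ) + (p : ℂ) ^ ((2 : ℤ) - 1) *
      (if p ∣ n then (S.eO (p : ZMod N) : ℂ) * (S.H (a * x) (n / p) : ℂ) else 0) -
      (S.G p : ℂ) * (S.H a n : ℂ) =
      ((S.H a (p * n) + (p : O) * (if p ∣ n then S.eO (p : ZMod N) * S.H (a * x) (n / p) else 0) -
        S.G p * S.H a n : O) : ℂ) := by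
    have h21 : ((2 : ℤ) - 1) = 1 := by norm_num
    rw [h21, zpow_one]
    split_ifs <;> push_cast <;> rfl
  rw [e, coe_mem_kerSub]
  have hGT := congrArg φ (S.hGT p hp hpN n)
  have key := S.phi_Ec_mul hℓ ha hxl
  rw [hxk] at key
  rw [map_sub, map_add, map_mul, map_mul, map_natCast, S.phi_H ha, S.phi_H ha]
  rw [map_add, map_mul, map_mul] at hGT
  split_ifs at hGT ⊢ with hpn
  · rw [map_mul, S.phi_H (mul_not_dvd hℓ ha hxl)]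
    linear_combination φ (S.Ec a 0) * hGT +
      φ (S.eO (p : ZMod N)) * φ (S.G (n / p)) * key
  · rw [map_zero, mul_zero, add_zero] at hGT ⊢
    rw [hGT]
    ring

theorem T_eigen {p : ℕ} (hp : p.Prime) (hpM : ¬ p ∣ N * ℓ) :
    P.T p (S.h 1) - (S.G p : ℂ) • S.h 1 ∈ P.lat (kerSub O φ) := by
  intro d n
  obtain ⟨x, hx, hdia⟩ := S.dia_h P d
  have hxl : ¬ (ℓ : ℤ) ∣ x := not_dvd_of_unit hℓ d hx
  have h1 := one_not_dvd hℓ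
  rw [map_sub, map_smul, ← P.T_dia p hp hpM, hdia 1 h1, map_smul,
    smul_comm (S.G p : ℂ) (S.ε ((x : ℤ) : ZMod N)), ← smul_sub, qCoeff_smul_cusp, ← S.heO]
  exact smul_kerSub _ _ (S.T_congr P hℓ hp hpM (mul_not_dvd hℓ h1 hxl) n)

theorem dia_eigen (d₀ : (ZMod (N * ℓ))ˣ) :
    ∃ c₀ : O, P.dia d₀ (S.h 1) - (c₀ : ℂ) • S.h 1 ∈ P.lat (kerSub O φ) ∧
      ∀ m : ℕ, (m : ZMod (N * ℓ)) = d₀ → (m : k) * φ c₀ = φ (S.eO (m : ZMod N)) := by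
  obtain ⟨x₀, hx₀, hdia₀⟩ := S.dia_h P d₀
  have hxl₀ : ¬ (ℓ : ℤ) ∣ x₀ := not_dvd_of_unit hℓ d₀ hx₀
  obtain ⟨w, hw⟩ := exists_int_inverse hℓ k hxl₀
  have h1 := one_not_dvd hℓ
  refine ⟨S.eO ((x₀ : ℤ) : ZMod N) * ((w : ℤ) : O), ?_, ?_⟩
  · intro d n
    obtain ⟨x, hx, hdia⟩ := S.dia_h P d
    have hxl : ¬ (ℓ : ℤ) ∣ x := not_dvd_of_unit hℓ d hx
    have h1x₀ : ¬ (ℓ : ℤ) ∣ 1 * x₀ := mul_not_dvd hℓ h1 hxl₀
    rw [map_sub, map_smul, hdia₀ 1 h1, map_smul, hdia (1 * x₀) h1x₀, hdia 1 h1,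
      qCoeff_sub_cusp, qCoeff_smul_cusp, qCoeff_smul_cusp, qCoeff_smul_cusp, qCoeff_smul_cusp,
      S.qCoeff_h (mul_not_dvd hℓ h1x₀ hxl), S.qCoeff_h (mul_not_dvd hℓ h1 hxl), ← S.heO, ← S.heO]
    have e : (S.eO ((x₀ : ℤ) : ZMod N) : ℂ) * ((S.eO ((x : ℤ) : ZMod N) : ℂ) *
        (S.H (1 * x₀ * x) n : ℂ)) -
        ((S.eO ((x₀ : ℤ) : ZMod N) * ((w : ℤ) : O) : O) : ℂ) *
          ((S.eO ((x : ℤ) : ZMod N) : ℂ) * (S.H (1 * x) n : ℂ)) =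
        ((S.eO ((x₀ : ℤ) : ZMod N) * (S.eO ((x : ℤ) : ZMod N) * S.H (1 * x₀ * x) n) -
          (S.eO ((x₀ : ℤ) : ZMod N) * ((w : ℤ) : O)) *
            (S.eO ((x : ℤ) : ZMod N) * S.H (1 * x) n) : O) : ℂ) := by
      push_cast; rfl
    rw [e, coe_mem_kerSub]
    have hA := S.hE0 (1 * x₀ * x) (mul_not_dvd hℓ h1x₀ hxl)
    have hB := S.hE0 (1 * x) (mul_not_dvd hℓ h1 hxl)
    have hx0 : (x : k) ≠ 0 := intCast_ne_zero_of_not_dvd k hxl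
    push_cast at hA hB
    have hAB : (x₀ : k) * φ (S.Ec (1 * x₀ * x) 0) = φ (S.Ec (1 * x) 0) := by
      apply mul_left_cancel₀ hx0
      rw [one_mul] at hA hB
      rw [hB, ← hA]
      ring
    rw [map_sub, map_mul, map_mul, map_mul, map_mul, map_mul, map_intCast,
      S.phi_H (mul_not_dvd hℓ h1x₀ hxl), S.phi_H (mul_not_dvd hℓ h1 hxl), ← hAB]
    linear_combination (-(φ (S.eO ((x₀ : ℤ) : ZMod N)) * φ (S.eO ((x : ℤ) : ZMod N)) *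
      φ (S.G n) * φ (S.Ec (1 * x₀ * x) 0))) * hw
  · intro m hm
    have hx' : ((x₀ : ℤ) : ZMod (N * ℓ)) = (((m : ℕ) : ℤ) : ZMod (N * ℓ)) := by
      rw [hx₀, ← hm]; simp
    have hxN : ((x₀ : ℤ) : ZMod N) = (m : ZMod N) := by
      rw [intCast_zmod_eq_of_mul_right hx']; simp
    have hxk : (x₀ : k) = (m : k) := by
      rw [intCast_charP_eq k hx']; simp
    rw [map_mul, map_intCast, hxN, ← hxk]
    linear_combination φ (S.eO (m : ZMod N)) * hw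

omit [CharP k ℓ] in
theorem ker_h (c : O) (hc : (c : ℂ) • S.h 1 ∈ P.lat (kerSub O φ)) : φ c = 0 := by
  obtain ⟨x, hx, hdia⟩ := S.dia_h P 1
  have hxl : ¬ (ℓ : ℤ) ∣ x := not_dvd_of_unit hℓ 1 hx
  have h1 := one_not_dvd hℓ
  have h := hc 1 1
  rw [map_smul, hdia 1 h1, qCoeff_smul_cusp, qCoeff_smul_cusp,
    S.qCoeff_h (mul_not_dvd hℓ h1 hxl), ← S.heO] at h
  have e : (c : ℂ) * ((S.eO ((x : ℤ) : ZMod N) : ℂ) * (S.H (1 * x) 1 : ℂ)) =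
      ((c * (S.eO ((x : ℤ) : ZMod N) * S.H (1 * x) 1) : O) : ℂ) := by push_cast; rfl
  rw [e, coe_mem_kerSub, map_mul, map_mul, S.phi_H (mul_not_dvd hℓ h1 hxl), S.hG1, map_one,
    one_mul] at h
  have hx' : ((x : ℤ) : ZMod (N * ℓ)) = (((1 : ℤ)) : ZMod (N * ℓ)) := by
    rw [hx]; simp
  have hxN : ((x : ℤ) : ZMod N) = 1 := by
    rw [intCast_zmod_eq_of_mul_right hx']; simp
  have he1 : S.eO ((x : ℤ) : ZMod N) = 1 := by
    apply Subtype.ext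
    rw [S.heO, hxN, map_one]; rfl
  rw [he1, map_one, one_mul] at h
  have hu := S.hE0 (1 * x) (mul_not_dvd hℓ h1 hxl)
  have hne : φ (S.Ec (1 * x) 0) ≠ 0 := by
    intro h0
    rw [h0, mul_zero] at hu
    exact S.hu₀ hu.symm
  exact (mul_eq_zero.mp h).resolve_right hne

/-- **MODL.** The mod-`ℓ` eigen-character of the Hecke algebra of `S₂(Γ₁(Nℓ))` attached to
`g · E₁`. -/
theorem exists_eigenHom (gens : Set (Module.End ℂ (CuspForm (Gamma1 (N * ℓ)) 2)))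
    (hgens : ∀ t ∈ gens, (∃ p : ℕ, p.Prime ∧ ¬ p ∣ N * ℓ ∧ t = P.T p) ∨
      ∃ d : (ZMod (N * ℓ))ˣ, t = P.dia d) :
    ∃ θ : Algebra.adjoin ℤ gens →+* k,
      (∀ (t : Algebra.adjoin ℤ gens) (p : ℕ), p.Prime → ¬ p ∣ N * ℓ →
        (t : Module.End ℂ (CuspForm (Gamma1 (N * ℓ)) 2)) = P.T p →
          ∀ a : O, (a : ℂ) = qCoeff S.g p → θ t = φ a) ∧
      (∀ (t : Algebra.adjoin ℤ gens) (d : (ZMod (N * ℓ))ˣ) (m : ℕ), (m : ZMod (N * ℓ)) = d →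
        (t : Module.End ℂ (CuspForm (Gamma1 (N * ℓ)) 2)) = P.dia d →
          ∀ e : O, (e : ℂ) = S.ε (m : ZMod N) → (m : k) * θ t = φ e) := by
  have hO'' : ∀ c : O, ∀ v ∈ P.lat (kerSub O φ), (c : ℂ) • v ∈ P.lat (kerSub O φ) :=
    fun c v hv => P.smul_mem_lat (smul_kerSub c) hv
  have hker : ∀ c : O, (c : ℂ) • S.h 1 ∈ P.lat (kerSub O φ) → φ c = 0 := S.ker_h P hℓ
  have hgensE : ∀ t ∈ gens,
      IsCongrEigen O (P.lat O.toAddSubgroup) (P.lat (kerSub O φ)) (S.h 1) t := by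
    intro t ht
    rcases hgens t ht with ⟨p, hp, hpM, rfl⟩ | ⟨d, rfl⟩
    · exact ⟨fun v hv => P.T_mem_lat (by norm_num) hp hpM hv,
        fun v hv => P.T_mem_lat (by norm_num) hp hpM hv, ⟨S.G p, S.T_eigen P hℓ hp hpM⟩⟩
    · obtain ⟨c₀, hc₀, -⟩ := S.dia_eigen P hℓ d
      exact ⟨fun v hv => P.dia_mem_lat d hv, fun v hv => P.dia_mem_lat d hv, ⟨c₀, hc₀⟩⟩
  have hmem := adjoin_le_eigenSubring hO'' gens hgensE
  let incl : Algebra.adjoin ℤ gens →+*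
      eigenSubring O (P.lat O.toAddSubgroup) (P.lat (kerSub O φ)) (S.h 1) hO'' :=
    { toFun := fun t => ⟨t.1, hmem t.1 t.2⟩
      map_one' := rfl
      map_mul' := fun _ _ => rfl
      map_zero' := rfl
      map_add' := fun _ _ => rfl }
  refine ⟨(eigenHom φ hO'' hker).comp incl, ?_, ?_⟩
  · intro t p hp hpM ht a ha
    have hc : ((incl t : eigenSubring O (P.lat O.toAddSubgroup) (P.lat (kerSub O φ)) (S.h 1) hO'') :
        Module.End ℂ (CuspForm (Gamma1 (N * ℓ)) 2)) (S.h 1) - (S.G p : ℂ) • S.h 1 ∈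
          P.lat (kerSub O φ) := by
      show (t : Module.End ℂ (CuspForm (Gamma1 (N * ℓ)) 2)) (S.h 1) - (S.G p : ℂ) • S.h 1 ∈ _
      rw [ht]
      exact S.T_eigen P hℓ hp hpM
    have haG : a = S.G p := Subtype.ext (ha.trans (S.hG p).symm)
    rw [haG]
    exact eigenHom_apply φ hO'' hker (incl t) hc
  · intro t d m hm ht e he
    obtain ⟨c₀, hc₀, hcons⟩ := S.dia_eigen P hℓ d
    have hc : ((incl t : eigenSubring O (P.lat O.toAddSubgroup) (P.lat (kerSub O φ)) (S.h 1) hO'') :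
        Module.End ℂ (CuspForm (Gamma1 (N * ℓ)) 2)) (S.h 1) - (c₀ : ℂ) • S.h 1 ∈
          P.lat (kerSub O φ) := by
      show (t : Module.End ℂ (CuspForm (Gamma1 (N * ℓ)) 2)) (S.h 1) - (c₀ : ℂ) • S.h 1 ∈ _
      rw [ht]
      exact hc₀
    have heE : e = S.eO (m : ZMod N) := Subtype.ext (he.trans (S.heO _).symm)
    have hθ : ((eigenHom φ hO'' hker).comp incl) t = φ c₀ :=
      eigenHom_apply φ hO'' hker (incl t) hc
    rw [hθ, heE]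
    exact hcons m hm

end Setup

/-! ### Consumer form: raw hypotheses -/

section Raw

variable {N ℓ : ℕ} {O : Subring ℂ} {k : Type*} [Field k] {φ : O →+* k}

/-- Build a `Setup` from hypotheses stated on complex `q`-coefficients. -/
noncomputable def Setup.ofData (ε : DirichletCharacter ℂ N) (g : CuspForm (Gamma1 N) 1)
    (E : ℤ → ModularForm (Gamma1 ℓ) 1)
    (hgO : ∀ n, qCoeff g n ∈ O) (hεO : ∀ x : ZMod N, ε x ∈ O)
    (hEO : ∀ a : ℤ, ¬ (ℓ : ℤ) ∣ a → ∀ n, qCoeff (E a) n ∈ O)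
    (hg1 : qCoeff g 1 = 1)
    (hgT : ∀ p : ℕ, p.Prime → ¬ p ∣ N → ∀ n : ℕ,
      qCoeff g (p * n) + ε (p : ZMod N) * (if p ∣ n then qCoeff g (n / p) else 0) =
        qCoeff g p * qCoeff g n)
    (hgε : ∀ γ : SL(2, ℤ), γ ∈ Gamma0 N → ⇑g ∣[(1 : ℤ)] γ = ε ((γ 1 1 : ℤ) : ZMod N) • ⇑g)
    (hE_slash : ∀ a : ℤ, ¬ (ℓ : ℤ) ∣ a → ∀ γ : SL(2, ℤ), γ ∈ Gamma0 ℓ →
      ⇑(E a) ∣[(1 : ℤ)] γ = ⇑(E (a * γ 1 1)))
    (hEpos : ∀ a : ℤ, ¬ (ℓ : ℤ) ∣ a → ∀ n, 1 ≤ n → qCoeff (E a) n ∈ kerSub O φ)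
    (u₀ : k) (hu₀ : u₀ ≠ 0)
    (hE0 : ∀ (a : ℤ) (ha : ¬ (ℓ : ℤ) ∣ a), (a : k) * φ ⟨qCoeff (E a) 0, hEO a ha 0⟩ = u₀) :
    Setup N ℓ O k φ where
  ε := ε
  g := g
  E := E
  G n := ⟨qCoeff g n, hgO n⟩
  eO x := ⟨ε x, hεO x⟩
  Ec a n := if h : ¬ (ℓ : ℤ) ∣ a then ⟨qCoeff (E a) n, hEO a h n⟩ else 0
  hG _ := rfl
  heO _ := rfl
  hEc a ha n := by rw [dif_pos ha]
  hG1 := Subtype.ext hg1
  hGT p hp hpN n := by
    apply Subtype.ext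
    have h := hgT p hp hpN n
    split_ifs at h ⊢ with hpn
    · push_cast
      exact h
    · push_cast
      exact h
  hgε := hgε
  hE_slash := hE_slash
  hEpos a ha n hn := by
    rw [dif_pos ha]
    exact coe_mem_kerSub.mp (hEpos a ha n hn)
  u₀ := u₀
  hu₀ := hu₀
  hE0 a ha := by
    rw [dif_pos ha]
    exact hE0 a ha

/-- **MODL, consumer form.**  `P` is the Hecke package of `S₂(Γ₁(Nℓ))`, `O ⊆ ℂ` a subring,
`φ : O →+* k` with `k` a field of characteristic `ℓ`; `g` is a weight one cusp form on `Γ₁(N)`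
with nebentypus `ε`, coefficients in `O`, satisfying the Hecke relations; `E a` is the family
of weight one Eisenstein series on `Γ₁(ℓ)`.  Then there is a ring homomorphism `θ` on the
`ℤ`-algebra generated by any set of operators `T_p` (`p ∤ Nℓ`) and `⟨d⟩`, with
`θ(T_p) = φ(a_p)` and `m · θ(⟨m⟩) = φ(ε(m))`. -/
theorem exists_eigenHom_of_data [NeZero N] [NeZero ℓ] (hℓ : ℓ.Prime) [CharP k ℓ]
    (P : HeckePkg (N * ℓ) 2)
    (ε : DirichletCharacter ℂ N) (g : CuspForm (Gamma1 N) 1)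
    (E : ℤ → ModularForm (Gamma1 ℓ) 1)
    (hgO : ∀ n, qCoeff g n ∈ O) (hεO : ∀ x : ZMod N, ε x ∈ O)
    (hEO : ∀ a : ℤ, ¬ (ℓ : ℤ) ∣ a → ∀ n, qCoeff (E a) n ∈ O)
    (hg1 : qCoeff g 1 = 1)
    (hgT : ∀ p : ℕ, p.Prime → ¬ p ∣ N → ∀ n : ℕ,
      qCoeff g (p * n) + ε (p : ZMod N) * (if p ∣ n then qCoeff g (n / p) else 0) =
        qCoeff g p * qCoeff g n)
    (hgε : ∀ γ : SL(2, ℤ), γ ∈ Gamma0 N → ⇑g ∣[(1 : ℤ)] γ = ε ((γ 1 1 : ℤ) : ZMod N) • ⇑g)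
    (hE_slash : ∀ a : ℤ, ¬ (ℓ : ℤ) ∣ a → ∀ γ : SL(2, ℤ), γ ∈ Gamma0 ℓ →
      ⇑(E a) ∣[(1 : ℤ)] γ = ⇑(E (a * γ 1 1)))
    (hEpos : ∀ a : ℤ, ¬ (ℓ : ℤ) ∣ a → ∀ n, 1 ≤ n → qCoeff (E a) n ∈ kerSub O φ)
    (u₀ : k) (hu₀ : u₀ ≠ 0)
    (hE0 : ∀ (a : ℤ) (ha : ¬ (ℓ : ℤ) ∣ a), (a : k) * φ ⟨qCoeff (E a) 0, hEO a ha 0⟩ = u₀)
    (gens : Set (Module.End ℂ (CuspForm (Gamma1 (N * ℓ)) 2)))
    (hgens : ∀ t ∈ gens, (∃ p : ℕ, p.Prime ∧ ¬ p ∣ N * ℓ ∧ t = P.T p) ∨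
      ∃ d : (ZMod (N * ℓ))ˣ, t = P.dia d) :
    ∃ θ : Algebra.adjoin ℤ gens →+* k,
      (∀ (t : Algebra.adjoin ℤ gens) (p : ℕ), p.Prime → ¬ p ∣ N * ℓ →
        (t : Module.End ℂ (CuspForm (Gamma1 (N * ℓ)) 2)) = P.T p →
          ∀ a : O, (a : ℂ) = qCoeff g p → θ t = φ a) ∧
      (∀ (t : Algebra.adjoin ℤ gens) (d : (ZMod (N * ℓ))ˣ) (m : ℕ), (m : ZMod (N * ℓ)) = d →
        (t : Module.End ℂ (CuspForm (Gamma1 (N * ℓ)) 2)) = P.dia d →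
          ∀ e : O, (e : ℂ) = ε (m : ZMod N) → (m : k) * θ t = φ e) :=
  (Setup.ofData ε g E hgO hεO hEO hg1 hgT hgε hE_slash hEpos u₀ hu₀ hE0).exists_eigenHom P hℓ
    gens hgens

end Raw

end Fermat.Agent.DS.ModL
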