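import Mathlib
import Fermat.Prelude.Def_FLTPrelim_Modularity
import Fermat.Agent.DS.ModL.Main
import Fermat.Agent.DS.ModL.LocalRing
import Fermat.Agent.DS.Eis1.Arith

/-!
# DS / MODL: the eigen-character modulo a prime of `integralClosure ℤ ℂ`

`exists_eigenHom_eis`: the mod-`ℓ` eigen-character for `g · E`, with `E = Eis1.eisFam ℓ 1` and
the reduction map given as a ring homomorphism `φ₀ : integralClosure ℤ ℂ →+* k` to a field of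
characteristic `ℓ ≥ 5`; `g` is allowed to have denominators prime to `ℓ`.
-/

set_option autoImplicit false

namespace Fermat.Agent.DS.ModL

open CongruenceSubgroup ModularFormClass UpperHalfPlane
open scoped MatrixGroups ModularForm

local notation "Zbar" => integralClosure ℤ ℂ

/-- The values of a Dirichlet character are algebraic integers. -/
theorem dirichlet_isIntegral {N : ℕ} [NeZero N] (ε : DirichletCharacter ℂ N) (x : ZMod N) :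
    IsIntegral ℤ (ε x) := by
  by_cases hx : IsUnit x
  · obtain ⟨u, rfl⟩ := hx
    have hpos : 0 < Fintype.card (ZMod N)ˣ := Fintype.card_pos
    have h1 : ε (u : ZMod N) ^ Fintype.card (ZMod N)ˣ = 1 := by
      rw [← map_pow, ← Units.val_pow_eq_pow_val, pow_card_eq_one, Units.val_one, map_one]
    refine IsIntegral.of_pow hpos ?_
    rw [h1]
    exact isIntegral_one
  · rw [MulChar.map_nonunit ε hx]
    exact isIntegral_zero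

theorem six_ne_zero_of_charP {ℓ : ℕ} (hℓ : ℓ.Prime) (h5 : 5 ≤ ℓ) (k : Type*) [Field k]
    [CharP k ℓ] : (6 : k) ≠ 0 := by
  intro h
  have h' : ((6 : ℕ) : k) = 0 := by exact_mod_cast h
  have hdvd : ℓ ∣ 6 := (CharP.cast_eq_zero_iff k ℓ 6).mp h'
  have hle : ℓ ≤ 6 := Nat.le_of_dvd (by norm_num) hdvd
  interval_cases ℓ
  · norm_num at hdvd
  · norm_num at hℓ

theorem not_dvd_two_mul_of_not_dvd {ℓ : ℕ} (hℓ : ℓ.Prime) (h5 : 5 ≤ ℓ) {a : ℤ}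
    (ha : ¬ (ℓ : ℤ) ∣ a) : ¬ (ℓ : ℤ) ∣ 2 * a := by
  intro h
  rcases (Nat.prime_iff_prime_int.mp hℓ).dvd_or_dvd h with h2 | h2
  · have : (ℓ : ℤ) ≤ 2 := Int.le_of_dvd (by norm_num) h2
    omega
  · exact ha h2

/-- **MODL with the Eisenstein family plugged in.** -/
theorem exists_eigenHom_eis {N ℓ : ℕ} [NeZero N] (hℓ : ℓ.Prime) (h5 : 5 ≤ ℓ)
    {k : Type*} [Field k] [CharP k ℓ] (φ₀ : Zbar →+* k) (P : HeckePkg (N * ℓ) 2)
    (ε : DirichletCharacter ℂ N) (g : CuspForm (Gamma1 N) 1)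
    (D : ℕ) (hD : (D : k) ≠ 0) (hgD : ∀ n, IsIntegral ℤ ((D : ℂ) * qCoeff g n))
    (hg1 : qCoeff g 1 = 1)
    (hgT : ∀ p : ℕ, p.Prime → ¬ p ∣ N → ∀ n : ℕ,
      qCoeff g (p * n) + ε (p : ZMod N) * (if p ∣ n then qCoeff g (n / p) else 0) =
        qCoeff g p * qCoeff g n)
    (hgε : ∀ γ : SL(2, ℤ), γ ∈ Gamma0 N → ⇑g ∣[(1 : ℤ)] γ = ε ((γ 1 1 : ℤ) : ZMod N) • ⇑g)
    (gens : Set (Module.End ℂ (CuspForm (Gamma1 (N * ℓ)) 2)))
    (hgens : ∀ t ∈ gens, (∃ p : ℕ, p.Prime ∧ ¬ p ∣ N * ℓ ∧ t = P.T p) ∨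
      ∃ d : (ZMod (N * ℓ))ˣ, t = P.dia d) :
    ∃ θ : Algebra.adjoin ℤ gens →+* k,
      (∀ (t : Algebra.adjoin ℤ gens) (p : ℕ), p.Prime → ¬ p ∣ N * ℓ →
        (t : Module.End ℂ (CuspForm (Gamma1 (N * ℓ)) 2)) = P.T p →
          ∀ a : Zbar, (a : ℂ) = qCoeff g p → θ t = φ₀ a) ∧
      (∀ (t : Algebra.adjoin ℤ gens) (d : (ZMod (N * ℓ))ˣ) (m : ℕ), (m : ZMod (N * ℓ)) = d →
        (t : Module.End ℂ (CuspForm (Gamma1 (N * ℓ)) 2)) = P.dia d →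
          ∀ e : Zbar, (e : ℂ) = ε (m : ZMod N) → (m : k) * θ t = φ₀ e) := by
  have : NeZero ℓ := ⟨hℓ.ne_zero⟩
  have : Fact ℓ.Prime := ⟨hℓ⟩
  have hℓpos : 0 < ℓ := hℓ.pos
  -- the prime `ker φ₀` contains `ℓ`
  have hker_prime : (RingHom.ker φ₀).IsPrime := RingHom.ker_isPrime φ₀
  have hℓker : ((ℓ : ℕ) : Zbar) ∈ RingHom.ker φ₀ := by
    rw [RingHom.mem_ker, map_natCast]
    exact CharP.cast_eq_zero k ℓ
  have hgO : ∀ n, qCoeff g n ∈ locSubring Zbar φ₀ :=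
    fun n => mem_locSubring_of_natCast_mul D hD (hgD n)
  have hεO : ∀ x : ZMod N, ε x ∈ locSubring Zbar φ₀ :=
    fun x => coe_mem_locSubring (⟨ε x, dirichlet_isIntegral ε x⟩ : Zbar)
  have hEO : ∀ a : ℤ, ¬ (ℓ : ℤ) ∣ a → ∀ n,
      qCoeff (Eis1.eisFam ℓ a) n ∈ locSubring Zbar φ₀ := by
    intro a ha n
    obtain ⟨c, hc, -⟩ := Eis1.eisFam_integral ℓ a (not_dvd_two_mul_of_not_dvd hℓ h5 ha)
    rw [hc n]
    exact coe_mem_locSubring (c n)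
  have hE_slash : ∀ a : ℤ, ¬ (ℓ : ℤ) ∣ a → ∀ γ : SL(2, ℤ), γ ∈ Gamma0 ℓ →
      ⇑(Eis1.eisFam ℓ a) ∣[(1 : ℤ)] γ = ⇑(Eis1.eisFam ℓ (a * γ 1 1)) :=
    fun a ha γ hγ => Eis1.eisFam_slash_Gamma0 hℓpos (not_dvd_two_mul_of_not_dvd hℓ h5 ha) γ hγ
  have hEpos : ∀ a : ℤ, ¬ (ℓ : ℤ) ∣ a → ∀ n, 1 ≤ n →
      qCoeff (Eis1.eisFam ℓ a) n ∈ kerSub (locSubring Zbar φ₀) (locHom Zbar φ₀) := by
    intro a ha n hn
    obtain ⟨c, hc, hc2⟩ := Eis1.eisFam_integral ℓ a (not_dvd_two_mul_of_not_dvd hℓ h5 ha)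
    have h0 := (hc2 _ hker_prime hℓker).2 n (by omega)
    rw [RingHom.mem_ker] at h0
    refine ⟨⟨(c n : ℂ), coe_mem_locSubring (c n)⟩, ?_, (hc n).symm⟩
    rw [locHom_coe _ (c n) rfl, h0]
  have hE0 : ∀ (a : ℤ) (ha : ¬ (ℓ : ℤ) ∣ a),
      (a : k) * locHom Zbar φ₀ ⟨qCoeff (Eis1.eisFam ℓ a) 0, hEO a ha 0⟩ = 6 := by
    intro a ha
    obtain ⟨c, hc, hc2⟩ := Eis1.eisFam_integral ℓ a (not_dvd_two_mul_of_not_dvd hℓ h5 ha)
    have h0 := (hc2 _ hker_prime hℓker).1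
    rw [RingHom.mem_ker, map_sub, map_mul, map_intCast, sub_eq_zero] at h0
    rw [locHom_coe _ (c 0) (hc 0), mul_comm, h0]
    exact map_ofNat φ₀ 6
  obtain ⟨θ, hθ1, hθ2⟩ := exists_eigenHom_of_data (φ := locHom Zbar φ₀) hℓ P ε g
    (fun a => Eis1.eisFam ℓ a) hgO hεO hEO hg1 hgT hgε hE_slash hEpos 6
    (six_ne_zero_of_charP hℓ h5 k) hE0 gens hgens
  refine ⟨θ, ?_, ?_⟩
  · intro t p hp hpM ht a ha
    rw [hθ1 t p hp hpM ht ⟨(a : ℂ), coe_mem_locSubring a⟩ ha]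
    exact locHom_coe _ a rfl
  · intro t d m hm ht e he
    rw [hθ2 t d m hm ht ⟨(e : ℂ), coe_mem_locSubring e⟩ he]
    exact locHom_coe _ e rfl

end Fermat.Agent.DS.ModL
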