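import Mathlib
import Fermat.Prelude.Def_FLTPrelim_Modularity
import Fermat.Agent.DS.ModL.Final
import Fermat.Agent.DS.Hecke1.Comm

/-!
# DS / MODL: the final statement, on `Hecke1.heckeAlgebra (N ℓ) 2`

`pkgOfHecke1 M k` fills the interface `HeckePkg M k` with the operators of `DS/Hecke1`, and
`exists_eigenHom_hecke1` is the mod-`ℓ` eigen-character
`θ : Hecke1.heckeAlgebra (N * ℓ) 2 →+* k` with `θ(T_p) = φ₀(a_p)` and `m · θ(⟨m⟩) = φ₀(ε(m))`.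
-/

set_option autoImplicit false

namespace Fermat.Agent.DS.ModL

open CongruenceSubgroup ModularFormClass UpperHalfPlane
open scoped MatrixGroups ModularForm

local notation "Zbar" => integralClosure ℤ ℂ

open Classical in
/-- The Hecke package of `DS/Hecke1`. -/
noncomputable def pkgOfHecke1 (M : ℕ) [NeZero M] (k : ℤ) : HeckePkg M k where
  dia d := Hecke1.diamond k d
  T p := if h : p.Prime ∧ ¬ p ∣ M then Hecke1.heckeT k h.1 h.2 else 0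
  dia_mul d d' g := by
    rw [Hecke1.diamond_mul, Module.End.mul_apply]
  T_dia p hp hpM d g := by
    rw [dif_pos ⟨hp, hpM⟩]
    have h := (Hecke1.diamond_heckeT_comm (k := k) d hp hpM).eq
    have h2 := congrArg (fun t => t g) h
    simp only [Module.End.mul_apply] at h2
    exact h2.symm
  dia_slash d γ hγ hd g := by
    rw [Hecke1.coe_diamond_eq_slash d g γ hγ hd]
    rfl
  qCoeff_T p hp hpM d hd g n := by
    rw [dif_pos ⟨hp, hpM⟩, Hecke1.qCoeff_heckeT hp hpM g n]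
    have hdd : d = Hecke1.punit hp hpM := Units.ext (hd.trans (Hecke1.coe_punit hp hpM).symm)
    rw [hdd, mul_comm n p]
    split_ifs <;> simp

theorem pkgOfHecke1_dia (M : ℕ) [NeZero M] (k : ℤ) (d : (ZMod M)ˣ) :
    (pkgOfHecke1 M k).dia d = Hecke1.diamond k d := rfl

theorem pkgOfHecke1_T (M : ℕ) [NeZero M] (k : ℤ) {p : ℕ} (hp : p.Prime) (hpM : ¬ p ∣ M) :
    (pkgOfHecke1 M k).T p = Hecke1.heckeT k hp hpM := by
  show (if h : p.Prime ∧ ¬ p ∣ M then Hecke1.heckeT k h.1 h.2 else 0) = _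
  rw [dif_pos ⟨hp, hpM⟩]

/-- **MODL, final form.**  For a prime `ℓ ≥ 5`, a field `k` of characteristic `ℓ`, a ring
homomorphism `φ₀ : integralClosure ℤ ℂ →+* k`, and a weight one cusp form `g` on `Γ₁(N)` with
nebentypus `ε` satisfying the Hecke relations, whose `q`-coefficients have a common denominator
`D` prime to `ℓ`: there is a ring homomorphism `θ` on the Hecke algebra of `S₂(Γ₁(Nℓ))` with
`θ(T_p) = φ₀(a_p)` (`p ∤ Nℓ`) and `m · θ(⟨m⟩) = φ₀(ε(m))`. -/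
theorem exists_eigenHom_hecke1 {N ℓ : ℕ} [NeZero N] [NeZero ℓ] (hℓ : ℓ.Prime) (h5 : 5 ≤ ℓ)
    {k : Type*} [Field k] [CharP k ℓ] (φ₀ : Zbar →+* k)
    (ε : DirichletCharacter ℂ N) (g : CuspForm (Gamma1 N) 1)
    (D : ℕ) (hD : (D : k) ≠ 0) (hgD : ∀ n, IsIntegral ℤ ((D : ℂ) * qCoeff g n))
    (hg1 : qCoeff g 1 = 1)
    (hgT : ∀ p : ℕ, p.Prime → ¬ p ∣ N → ∀ n : ℕ,
      qCoeff g (p * n) + ε (p : ZMod N) * (if p ∣ n then qCoeff g (n / p) else 0) =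
        qCoeff g p * qCoeff g n)
    (hgε : ∀ γ : SL(2, ℤ), γ ∈ Gamma0 N → ⇑g ∣[(1 : ℤ)] γ = ε ((γ 1 1 : ℤ) : ZMod N) • ⇑g) :
    ∃ θ : Hecke1.heckeAlgebra (N * ℓ) 2 →+* k,
      (∀ (p : ℕ) (hp : p.Prime) (hpM : ¬ p ∣ N * ℓ) (a : Zbar), (a : ℂ) = qCoeff g p →
        θ (Hecke1.heckeAlgebra.T hp hpM) = φ₀ a) ∧
      (∀ (d : (ZMod (N * ℓ))ˣ) (m : ℕ), (m : ZMod (N * ℓ)) = d →
        ∀ e : Zbar, (e : ℂ) = ε (m : ZMod N) → (m : k) * θ (Hecke1.heckeAlgebra.D d) = φ₀ e) := by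
  have hgens : ∀ t ∈ Hecke1.heckeGenerators (N * ℓ) 2,
      (∃ p : ℕ, p.Prime ∧ ¬ p ∣ N * ℓ ∧ t = (pkgOfHecke1 (N * ℓ) 2).T p) ∨
        ∃ d : (ZMod (N * ℓ))ˣ, t = (pkgOfHecke1 (N * ℓ) 2).dia d := by
    rintro t (⟨p, hp, hpM, rfl⟩ | ⟨d, rfl⟩)
    · exact Or.inl ⟨p, hp, hpM, (pkgOfHecke1_T (N * ℓ) 2 hp hpM).symm⟩
    · exact Or.inr ⟨d, rfl⟩
  obtain ⟨θ, hθ1, hθ2⟩ := exists_eigenHom_eis hℓ h5 φ₀ (pkgOfHecke1 (N * ℓ) 2) ε g D hD hgD hg1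
    hgT hgε (Hecke1.heckeGenerators (N * ℓ) 2) hgens
  refine ⟨θ, ?_, ?_⟩
  · intro p hp hpM a ha
    exact hθ1 (Hecke1.heckeAlgebra.T hp hpM) p hp hpM (pkgOfHecke1_T (N * ℓ) 2 hp hpM).symm a ha
  · intro d m hm e he
    exact hθ2 (Hecke1.heckeAlgebra.D d) d m hm rfl e he

end Fermat.Agent.DS.ModL
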